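import Mathlib
import Fermat.Agent.H24H.Lattice

set_option autoImplicit false
set_option linter.all false
set_option maxHeartbeats 400000

/-! The abstract lower bound: families of forms congruent to a sequence in a group algebra. -/

namespace Fermat.Agent.H29U

open Module Fermat.Agent.H24H

noncomputable section

variable {K : Type*} [Field K] (A : ValuationSubring K) (f : ℕ) {I : Type*} (p : I → ℕ)
  {X : Type*} [AddCommGroup X] [Module K X] (T : I → Module.End K X) (cf : ℕ → X →ₗ[K] K)

/-- compatibility of operators and coefficients -/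
structure CfHyp : Prop where
  cop : ∀ i, (p i).Coprime f
  cf_T : ∀ i n, n.Coprime f → ∀ F : X, cf n (T i F) =
    cf (p i * n) F + if p i ∣ n then (p i : K) * cf (n / p i) F else 0

variable {A f p T cf}

theorem coprime_div {m n f : ℕ} (h : n.Coprime f) (hm : m ∣ n) : (n / m).Coprime f :=
  Nat.Coprime.coprime_dvd_left (Nat.div_dvd_of_dvd hm) h

theorem natCast_mem' (A : ValuationSubring K) (n : ℕ) : (n : K) ∈ A := natCast_mem A n

theorem mul_nonunits {x y : K} (hx : x ∈ A) (hy : y ∈ A.nonunits) : x * y ∈ A.nonunits := by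
  rw [ValuationSubring.mem_nonunits_iff] at hy ⊢
  rw [map_mul, mul_comm]
  exact mul_lt_one_of_lt_of_le hy ((ValuationSubring.valuation_le_one_iff A _).mpr hx)

theorem add_nonunits {x y : K} (hx : x ∈ A.nonunits) (hy : y ∈ A.nonunits) :
    x + y ∈ A.nonunits := by
  rw [ValuationSubring.mem_nonunits_iff] at hx hy ⊢
  exact (A.valuation.map_add_lt hx hy)

variable (A f) in
/-- forms with integral coefficients -/
def latL (cf : ℕ → X →ₗ[K] K) : AddSubgroup X where
  carrier := {F | ∀ n, n.Coprime f → cf n F ∈ A}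
  zero_mem' := fun n _ => by rw [map_zero]; exact A.zero_mem
  add_mem' := fun {x y} hx hy n hn => by
    rw [map_add]; exact A.add_mem _ _ (hx n hn) (hy n hn)
  neg_mem' := fun {x} hx n hn => by rw [map_neg]; exact A.neg_mem _ (hx n hn)

variable (A f) in
/-- forms with coefficients in the maximal ideal -/
def latL0 (cf : ℕ → X →ₗ[K] K) : AddSubgroup X where
  carrier := {F | ∀ n, n.Coprime f → cf n F ∈ A.nonunits}
  zero_mem' := fun n _ => by
    rw [map_zero, ValuationSubring.mem_nonunits_iff, map_zero]; exact zero_lt_one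
  add_mem' := fun {x y} hx hy n hn => by
    rw [map_add]; exact add_nonunits (hx n hn) (hy n hn)
  neg_mem' := fun {x} hx n hn => by
    have := hx n hn
    rw [ValuationSubring.mem_nonunits_iff] at this ⊢
    rw [map_neg, Valuation.map_neg]; exact this

theorem mem_latL {F : X} : F ∈ latL A f cf ↔ ∀ n, n.Coprime f → cf n F ∈ A := Iff.rfl

theorem mem_latL0 {F : X} : F ∈ latL0 A f cf ↔ ∀ n, n.Coprime f → cf n F ∈ A.nonunits := Iff.rfl

/-- the lattice -/
def latU (A : ValuationSubring K) (h : CfHyp f p T cf) : Lat A T where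
  L := latL A f cf
  L0 := latL0 A f cf
  smul_mem := fun {c x} hc hx n hn => by
    rw [map_smul, smul_eq_mul]; exact A.mul_mem _ _ hc (hx n hn)
  T_mem := fun i {x} hx n hn => by
    rw [h.cf_T i n hn]
    refine A.add_mem _ _ (hx _ (Nat.Coprime.mul_left (h.cop i) hn)) ?_
    split_ifs with hd
    · exact A.mul_mem _ _ (natCast_mem A _) (hx _ (coprime_div hn hd))
    · exact A.zero_mem
  smul_mem0 := fun {c x} hc hx n hn => by
    rw [map_smul, smul_eq_mul]; exact mul_nonunits hc (hx n hn)
  T_mem0 := fun i {x} hx n hn => by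
    rw [h.cf_T i n hn]
    refine add_nonunits (hx _ (Nat.Coprime.mul_left (h.cop i) hn)) ?_
    split_ifs with hd
    · exact mul_nonunits (natCast_mem A _) (hx _ (coprime_div hn hd))
    · rw [ValuationSubring.mem_nonunits_iff, map_zero]; exact zero_lt_one
  nonunit_smul := fun {c x} hc hx n hn => by
    rw [map_smul, smul_eq_mul, mul_comm]; exact mul_nonunits (hx n hn) hc


/-- the reduction of the `n`-th coefficient -/
def rc (A : ValuationSubring K) (cf : ℕ → X →ₗ[K] K) (n : ℕ) (F : X) :
    IsLocalRing.ResidueField A :=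
  open Classical in if h : cf n F ∈ A then IsLocalRing.residue A ⟨cf n F, h⟩ else 0

theorem rc_of_mem {n : ℕ} {F : X} (h : cf n F ∈ A) :
    rc A cf n F = IsLocalRing.residue A ⟨cf n F, h⟩ := dif_pos h

theorem rc_sub_smul (h : CfHyp f p T cf) (hodd : ∀ i, ((p i : ℕ) : IsLocalRing.ResidueField A) = 1) (i : I) (c : A)
    {F : X} (hF : F ∈ latL A f cf) {n : ℕ} (hn : n.Coprime f) :
    rc A cf n ((T i - (c : K) • (1 : Module.End K X)) F) =
      (rc A cf (p i * n) F + if p i ∣ n then rc A cf (n / p i) F else 0) -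
        IsLocalRing.residue A c * rc A cf n F := by
  have h1 := hF _ (Nat.Coprime.mul_left (h.cop i) hn)
  have h2 := hF n hn
  have e : cf n ((T i - (c : K) • (1 : Module.End K X)) F) =
      (cf (p i * n) F + if p i ∣ n then (p i : K) * cf (n / p i) F else 0) - c * cf n F := by
    rw [LinearMap.sub_apply, LinearMap.smul_apply, Module.End.one_apply, map_sub, map_smul,
      h.cf_T i n hn, smul_eq_mul]
  by_cases hd : p i ∣ n
  · have h3 := hF _ (coprime_div hn hd)
    rw [if_pos hd] at e ⊢
    have h4 : cf n ((T i - (c : K) • (1 : Module.End K X)) F) ∈ A := by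
      rw [e]
      exact A.sub_mem (A.add_mem _ _ h1 (A.mul_mem _ _ (natCast_mem A _) h3))
        (A.mul_mem _ _ c.2 h2)
    rw [rc_of_mem h4, rc_of_mem h1, rc_of_mem h3, rc_of_mem h2]
    have e2 : (⟨_, h4⟩ : A) = (⟨_, h1⟩ + (p i : A) * ⟨_, h3⟩) - c * ⟨_, h2⟩ :=
      Subtype.ext (e.trans (by push_cast; rfl))
    rw [e2, map_sub, map_add, map_mul, map_mul, map_natCast, hodd, one_mul]
  · rw [if_neg hd] at e ⊢
    rw [add_zero] at e ⊢
    have h4 : cf n ((T i - (c : K) • (1 : Module.End K X)) F) ∈ A := by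
      rw [e]
      exact A.sub_mem h1 (A.mul_mem _ _ c.2 h2)
    rw [rc_of_mem h4, rc_of_mem h1, rc_of_mem h2]
    have e2 : (⟨_, h4⟩ : A) = ⟨_, h1⟩ - c * ⟨_, h2⟩ :=
      Subtype.ext (e.trans rfl)
    rw [e2, map_sub, map_mul]

/-- hypotheses on the sequence in the group algebra -/
structure ThHyp (f : ℕ) (p : I → ℕ) {k : Type*} [Field k] {G : Type*} [CommGroup G]
    (th : ℕ → MonoidAlgebra k G) (a : I → k) : Prop where
  mulrec : ∀ i n, n.Coprime f → th (p i * n) + (if p i ∣ n then th (n / p i) else 0) =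
    th (p i) * th n
  nil : ∀ i, ∃ N : ℕ, (th (p i) - algebraMap k _ (a i)) ^ N = 0

variable {G : Type*} [CommGroup G] [Fintype G] {th : ℕ → MonoidAlgebra (IsLocalRing.ResidueField A) G} {a : I → IsLocalRing.ResidueField A}

/-- the operators act on families through the group algebra -/
theorem fam_pow (h : CfHyp f p T cf) (hodd : ∀ i, ((p i : ℕ) : IsLocalRing.ResidueField A) = 1)
    (ht : ThHyp f p th a) (F : G → X) (hL : ∀ g, F g ∈ latL A f cf)
    (hF : ∀ g n, n.Coprime f → rc A cf n (F g) = (th n).coeff g) (i : I) (c : A)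
    (hc : IsLocalRing.residue A c = a i) (N : ℕ) :
    ∀ g n, n.Coprime f → rc A cf n (((T i - (c : K) • (1 : Module.End K X)) ^ N) (F g)) =
      ((th (p i) - algebraMap (IsLocalRing.ResidueField A) _ (a i)) ^ N * th n).coeff g := by
  induction N with
  | zero =>
    intro g n hn
    rw [pow_zero, pow_zero, one_mul, Module.End.one_apply, hF g n hn]
  | succ N ih =>
    intro g n hn
    have hL' : ((T i - (c : K) • (1 : Module.End K X)) ^ N) (F g) ∈ latL A f cf :=
      (latU A h).pow_sub_mem i c.2 (hL g) N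
    rw [pow_succ', Module.End.mul_apply, rc_sub_smul h hodd i c hL' hn,
      ih g _ (Nat.Coprime.mul_left (h.cop i) hn), ih g n hn]
    have e1 : (th (p i) - algebraMap (IsLocalRing.ResidueField A) _ (a i)) ^ (N + 1) * th n =
        (th (p i) - algebraMap (IsLocalRing.ResidueField A) _ (a i)) ^ N * (th (p i) * th n) -
          algebraMap (IsLocalRing.ResidueField A) _ (a i) * ((th (p i) - algebraMap (IsLocalRing.ResidueField A) _ (a i)) ^ N * th n) := by
      ring
    rw [e1, ← ht.mulrec i n hn, mul_add, ← Algebra.smul_def]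
    by_cases hd : p i ∣ n
    · rw [if_pos hd, if_pos hd, ih g _ (coprime_div hn hd), hc]
      simp only [MonoidAlgebra.coeff_sub, MonoidAlgebra.coeff_add, MonoidAlgebra.coeff_smul,
        Finsupp.sub_apply, Finsupp.add_apply, Finsupp.smul_apply, smul_eq_mul]
    · rw [if_neg hd, if_neg hd, hc]
      simp only [MonoidAlgebra.coeff_sub, MonoidAlgebra.coeff_smul, mul_zero, add_zero,
        Finsupp.sub_apply, Finsupp.smul_apply, smul_eq_mul]

/-- **abstract lower bound** -/
theorem card_le [IsAlgClosed K] [FiniteDimensional K X] (h : CfHyp f p T cf)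
    (hT : ∀ i j, Commute (T i) (T j)) (hodd : ∀ i, ((p i : ℕ) : IsLocalRing.ResidueField A) = 1)
    (ht : ThHyp f p th a) (F : G → X) (hL : ∀ g, F g ∈ latL A f cf)
    (hF : ∀ g n, n.Coprime f → rc A cf n (F g) = (th n).coeff g)
    (hsp : ∀ c : G → IsLocalRing.ResidueField A, (∀ n, n.Coprime f → ∑ g, c g * (th n).coeff g = 0) → c = 0) :
    Fintype.card G ≤ finrank K (gpart T (LamA A a)) := by
  refine (latU A h).le_finrank hT a F hL ?_ ?_
  · intro g
    refine (latU A h).part_of_exists (hL g) fun i => ?_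
    obtain ⟨c, hc⟩ := IsLocalRing.residue_surjective (R := A) (a i)
    obtain ⟨N, hN⟩ := ht.nil i
    refine ⟨c, c.2, hc, N, fun n hn => ?_⟩
    have h1 := fam_pow h hodd ht F hL hF i c hc N g n hn
    have h2 : ((T i - (c : K) • (1 : Module.End K X)) ^ N) (F g) ∈ latL A f cf :=
      (latU A h).pow_sub_mem i c.2 (hL g) N
    rw [hN, zero_mul, MonoidAlgebra.coeff_zero, Finsupp.zero_apply, rc_of_mem (h2 n hn)] at h1
    exact (residue_eq_zero_iff' _).mp h1
  · intro c hc hc0
    have h1 : (fun g => IsLocalRing.residue A ⟨c g, hc g⟩) = 0 := by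
      apply hsp
      intro n hn
      have h2 := hc0 n hn
      have h3 : cf n (∑ g, c g • F g) = ((∑ g, (⟨c g, hc g⟩ : A) * ⟨cf n (F g), hL g n hn⟩ : A) : K) := by
        rw [map_sum]
        push_cast
        refine Finset.sum_congr rfl fun g _ => ?_
        rw [map_smul, smul_eq_mul]
      have h4 : cf n (∑ g, c g • F g) ∈ A := mem_of_nonunits h2
      have h5 := (residue_eq_zero_iff' h4).mpr h2
      have h6 : (⟨_, h4⟩ : A) = ∑ g, (⟨c g, hc g⟩ : A) * ⟨cf n (F g), hL g n hn⟩ :=
        Subtype.ext h3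
      rw [h6, map_sum] at h5
      rw [← h5]
      refine Finset.sum_congr rfl fun g _ => ?_
      rw [map_mul, ← rc_of_mem (hL g n hn), hF g n hn]
    intro g
    exact (residue_eq_zero_iff' (hc g)).mp (congrFun h1 g)

end

end Fermat.Agent.H29U
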