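import Mathlib
import Fermat.Agent.H29U.Abs

set_option autoImplicit false
set_option linter.all false
set_option maxHeartbeats 400000

/-! Families of forms attached to the characters of a finite group. -/

namespace Fermat.Agent.H29U

open Module Fermat.Agent.H24H

noncomputable section

variable {S : Type*} [CommRing S] [IsDedekindDomain S] [Module.Free ℤ S] [Module.Finite ℤ S]

theorem charZero_of_free [Nontrivial S] : CharZero S := by
  have h : Function.Injective (algebraMap ℤ S) := FaithfulSMul.algebraMap_injective ℤ S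
  refine ⟨fun m n hmn => ?_⟩
  have : algebraMap ℤ S m = algebraMap ℤ S n := by
    rw [eq_intCast, eq_intCast]; exact_mod_cast hmn
  exact_mod_cast h this

variable (S) in
theorem finite_norm (n : ℕ) : {b : Ideal S | Ideal.absNorm b = n}.Finite := by
  haveI := charZero_of_free (S := S)
  exact Ideal.finite_setOf_absNorm_eq n

variable (S) in
/-- the ideals of norm `n` -/
def nS (n : ℕ) : Finset (Ideal S) := (finite_norm S n).toFinset

theorem mem_nS {n : ℕ} {b : Ideal S} : b ∈ nS S n ↔ Ideal.absNorm b = n := by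
  rw [nS, Set.Finite.mem_toFinset]; rfl

/-- sums over ideals of given norm -/
def aX {R : Type*} [AddCommMonoid R] (X : Ideal S → R) (n : ℕ) : R := ∑ b ∈ nS S n, X b

theorem aX_def {R : Type*} [AddCommMonoid R] (X : Ideal S → R) (n : ℕ) :
    aX X n = ∑ b ∈ nS S n, X b := rfl

/-- coefficients of the product with a theta series, at `4n` -/
def cX (f : ℕ) (r : ℕ → ℕ) (X : Ideal S → ℂ) (n : ℕ) : ℂ :=
  ∑ m ∈ Finset.range (4 * n / f + 1), (r m : ℂ) * aX X (4 * n - f * m)

theorem cX_lin {J : Type*} (s : Finset J) (f : ℕ) (r : ℕ → ℕ) (X : J → Ideal S → ℂ) (c : J → ℂ)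
    (n : ℕ) : ∑ j ∈ s, c j * cX f r (X j) n = cX f r (fun b => ∑ j ∈ s, c j * X j b) n := by
  simp only [cX, Finset.mul_sum]
  rw [Finset.sum_comm]
  refine Finset.sum_congr rfl fun m _ => ?_
  simp only [aX_def]
  rw [Finset.mul_sum]
  simp only [Finset.mul_sum]
  rw [Finset.sum_comm]
  refine Finset.sum_congr rfl fun b _ => Finset.sum_congr rfl fun j _ => ?_
  ring

section char

variable {G : Type*} [CommGroup G] [Fintype G] [DecidableEq G]

/-- the homomorphism of an additive character -/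
def thetaOf (ψ : AddChar (Additive G) ℂ) : G →* ℂˣ :=
  MonoidHom.toHomUnits
    { toFun := fun g => ψ (Additive.ofMul g)
      map_one' := ψ.map_zero_eq_one
      map_mul' := fun a b => ψ.map_add_eq_mul _ _ }

theorem thetaOf_apply (ψ : AddChar (Additive G) ℂ) (g : G) :
    (thetaOf ψ g : ℂ) = ψ (Additive.ofMul g) := rfl

/-- orthogonality -/
theorem sum_theta (g h : G) :
    ∑ ψ : AddChar (Additive G) ℂ, (thetaOf ψ g⁻¹ : ℂ) * (thetaOf ψ h : ℂ) =
      if h = g then (Fintype.card G : ℂ) else 0 := by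
  have h1 := AddChar.sum_apply_eq_ite (α := Additive G) (Additive.ofMul (g⁻¹ * h))
  have h2 : ∀ ψ : AddChar (Additive G) ℂ, ψ (Additive.ofMul (g⁻¹ * h)) =
      (thetaOf ψ g⁻¹ : ℂ) * (thetaOf ψ h : ℂ) := by
    intro ψ
    rw [← Units.val_mul, ← map_mul, thetaOf_apply]
  simp only [h2] at h1
  rw [h1]
  have h3 : (Additive.ofMul (g⁻¹ * h) = 0) ↔ h = g := by
    rw [ofMul_eq_zero, inv_mul_eq_one, eq_comm]
  simp only [h3]
  rw [Fintype.card_congr (Additive.toMul (α := G))]

/-- the projection to a class -/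
theorem proj_class (X : Ideal S → ℂ) (cls : Ideal S → G) (g : G) (b : Ideal S) :
    ∑ ψ : AddChar (Additive G) ℂ, ((Fintype.card G : ℂ)⁻¹ * (thetaOf ψ g⁻¹ : ℂ)) *
      (X b * (thetaOf ψ (cls b) : ℂ)) = if cls b = g then X b else 0 := by
  have h1 : ∀ ψ : AddChar (Additive G) ℂ, ((Fintype.card G : ℂ)⁻¹ * (thetaOf ψ g⁻¹ : ℂ)) *
      (X b * (thetaOf ψ (cls b) : ℂ)) = ((Fintype.card G : ℂ)⁻¹ * X b) *
        ((thetaOf ψ g⁻¹ : ℂ) * (thetaOf ψ (cls b) : ℂ)) := by intro ψ; ring
  simp only [h1]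
  rw [← Finset.mul_sum, sum_theta]
  have h2 : (Fintype.card G : ℂ) ≠ 0 := by exact_mod_cast Fintype.card_ne_zero
  split_ifs
  · field_simp
  · ring

end char

section red

variable {A : ValuationSubring ℂ} {G : Type*} [CommGroup G] [Fintype G] [DecidableEq G]


/-- the reduced sequence -/
def thS (X : Ideal S → A) (cls : Ideal S → G) (n : ℕ) : MonoidAlgebra (IsLocalRing.ResidueField A) G :=
  ∑ b ∈ nS S n, MonoidAlgebra.single (cls b) (IsLocalRing.residue A (X b))

theorem thS_apply (X : Ideal S → A) (cls : Ideal S → G) (n : ℕ) (g : G) :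
    (thS X cls n).coeff g = ∑ b ∈ nS S n, if cls b = g then IsLocalRing.residue A (X b) else 0 := by
  rw [thS, MonoidAlgebra.coeff_sum, Finsupp.finset_sum_apply]
  refine Finset.sum_congr rfl fun b _ => ?_
  rw [MonoidAlgebra.coeff_single, Finsupp.single_apply]

theorem residue_even (h2 : (2 : IsLocalRing.ResidueField A) = 0) {m : ℕ} (hm : Even m) (x : A) :
    IsLocalRing.residue A ((m : A) * x) = 0 := by
  obtain ⟨j, rfl⟩ := hm
  rw [map_mul, map_natCast]
  push_cast
  rw [← two_mul, h2, zero_mul, zero_mul]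

/-- reduction of the coefficients -/
theorem residue_cX (h2 : (2 : IsLocalRing.ResidueField A) = 0) {f : ℕ} (hf : 0 < f) {r : ℕ → ℕ} (hr0 : r 0 = 1)
    (hr : ∀ m, 0 < m → Even (r m)) (X : Ideal S → A) (cls : Ideal S → G) (g : G) (n : ℕ) :
    ∃ h : cX f r (fun b => if cls b = g then ((X b : A) : ℂ) else 0) n ∈ A,
      IsLocalRing.residue A ⟨_, h⟩ = (thS X cls (4 * n)).coeff g := by
  let Y : Ideal S → A := fun b => if cls b = g then X b else 0
  have hY : ∀ b, (if cls b = g then ((X b : A) : ℂ) else 0) = ((Y b : A) : ℂ) := by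
    intro b
    show _ = (((if cls b = g then X b else 0 : A)) : ℂ)
    split_ifs <;> rfl
  let C : A := ∑ m ∈ Finset.range (4 * n / f + 1), (r m : A) * aX Y (4 * n - f * m)
  have hC : cX f r (fun b => if cls b = g then ((X b : A) : ℂ) else 0) n = (C : ℂ) := by
    rw [cX]
    simp only [hY, C, aX_def]
    push_cast
    rfl
  have hm : cX f r (fun b => if cls b = g then ((X b : A) : ℂ) else 0) n ∈ A := by
    rw [hC]; exact C.2
  refine ⟨hm, ?_⟩
  have e1 : (⟨_, hm⟩ : A) = C := Subtype.ext hC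
  rw [e1, thS_apply, map_sum, Finset.sum_eq_single 0]
  · rw [hr0, Nat.cast_one, one_mul, mul_zero, Nat.sub_zero, aX_def, map_sum]
    refine Finset.sum_congr rfl fun b _ => ?_
    show IsLocalRing.residue A (if cls b = g then X b else 0) = _
    split_ifs
    · rfl
    · exact map_zero _
  · intro m _ hm
    exact residue_even h2 (hr m (Nat.pos_of_ne_zero hm)) _
  · intro h; exact absurd (Finset.mem_range.mpr (Nat.succ_pos _)) h

theorem residue_odd {A : ValuationSubring ℂ} (h2 : (2 : IsLocalRing.ResidueField A) = 0) {m : ℕ}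
    (hm : Odd m) : (m : IsLocalRing.ResidueField A) = 1 := by
  obtain ⟨j, rfl⟩ := hm
  push_cast
  rw [h2, zero_mul, zero_add]

/-- **lower bound for a family of forms indexed by the characters of a group** -/
theorem card_le_of_family {f : ℕ} {I : Type*} {p : I → ℕ} {V : Type*} [AddCommGroup V]
    [Module ℂ V] [FiniteDimensional ℂ V] {T : I → Module.End ℂ V} {cf : ℕ → V →ₗ[ℂ] ℂ}
    (h : CfHyp f p T cf) (hT : ∀ i j, Commute (T i) (T j))
    (h2 : (2 : IsLocalRing.ResidueField A) = 0) (hodd : ∀ i, Odd (p i)) (hf : 0 < f) {r : ℕ → ℕ}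
    (hr0 : r 0 = 1) (hr : ∀ m, 0 < m → Even (r m)) (X : Ideal S → A) (cls : Ideal S → G)
    (U : AddChar (Additive G) ℂ → V)
    (hU : ∀ ψ n, n.Coprime f → cf n (U ψ) =
      cX f r (fun b => ((X b : A) : ℂ) * (thetaOf ψ (cls b) : ℂ)) n)
    (hth4 : ∀ n, n.Coprime f → thS X cls (4 * n) = thS X cls n)
    {a : I → IsLocalRing.ResidueField A} (ht : ThHyp f p (thS X cls) a)
    (hsp : ∀ c : G → IsLocalRing.ResidueField A,
      (∀ n, n.Coprime f → ∑ g, c g * (thS X cls n).coeff g = 0) → c = 0) :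
    Fintype.card G ≤ finrank ℂ (gpart T (LamA A a)) := by
  let F : G → V := fun g => ∑ ψ : AddChar (Additive G) ℂ,
    ((Fintype.card G : ℂ)⁻¹ * (thetaOf ψ g⁻¹ : ℂ)) • U ψ
  have hcf : ∀ g n, n.Coprime f → cf n (F g) =
      cX f r (fun b => if cls b = g then ((X b : A) : ℂ) else 0) n := by
    intro g n hn
    show cf n (∑ ψ : AddChar (Additive G) ℂ, _) = _
    rw [map_sum]
    simp only [map_smul, smul_eq_mul, hU _ n hn]
    rw [cX_lin]
    congr 1
    funext b
    exact proj_class (fun b => ((X b : A) : ℂ)) cls g b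
  have hL : ∀ g, F g ∈ latL A f cf := by
    intro g n hn
    rw [hcf g n hn]
    exact (residue_cX h2 hf hr0 hr X cls g n).choose
  refine card_le h hT (fun i => residue_odd h2 (hodd i)) ht F hL ?_ hsp
  intro g n hn
  rw [rc_of_mem (hL g n hn), ← hth4 n hn]
  obtain ⟨h5, h6⟩ := residue_cX h2 hf hr0 hr X cls g n
  rw [← h6]
  congr 1
  exact Subtype.ext (hcf g n hn)

end red

end

end Fermat.Agent.H29U
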