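import Mathlib
import Fermat.Agent.H29W.BFinal
import Fermat.Agent.H29U.Fam
import Fermat.Agent.H18T.UForm
import Fermat.Agent.ZC.RCStruct
import Fermat.Agent.H24H.Comm

set_option autoImplicit false
set_option linter.all false
set_option maxHeartbeats 400000

/-! The lower bound for the space of vector valued forms. -/

namespace Fermat.Agent.H29U

open Module NumberField Fermat.Agent.H29Z Fermat.Agent.H24ES Fermat.Agent.H24H

noncomputable section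

section bridge

variable {d : ℤ} {B : Finset ℕ} [PB B] [IB d B]

instance instFactPrB (i : B) :
    Fact (∀ r : ZMod (i : ℕ), r ^ 2 ≠ H29W.pr (EB B) i ((d : ℤ) : ZMod (fB B)) + 0 * r) :=
  instFactPr (EB B) i

theorem kirE_toW {R : Type*} [CommRing R] (D : BData d B R) :
    H18T.kirE (toW (EB B) D) = kirB D := by
  ext1 g
  refine LinearMap.ext fun φ => ?_
  funext s
  rw [H18T.kirE_apply, toW_M]
  rfl

theorem upT_kirB (D : BData d B ℂ) (hΨ : ∀ x, bigΨ (EB B) D x = ZMod.stdAddChar x) :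
    H18T.UpT (kirB D) := by
  rw [← kirE_toW]
  exact H18T.upT_kirE (toW (EB B) D) hΨ

variable {M : ℕ} [NeZero M]

theorem xi'_toW [IB (-2 * M) B] (D : BData (-2 * M) B ℂ) {S : Type*} [CommRing S]
    (e : S ≃+* QuadraticAlgebra ℤ (-2 * M : ℤ) 0) (y : S) :
    H18T.xi' (toW (EB B) D) (H18T.rdS (M := M) (f := fB B) e rfl y) =
      ∏ i : B, (D i).ξ (qmap (Int.castRingHom (ZMod (i : ℕ))) (-2 * M) (e y))⁻¹ := by
  rw [H18T.xi']
  refine Finset.prod_congr rfl fun i _ => ?_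
  refine (castChar_inv _ _ _).trans ?_
  congr 2
  ext
  · exact map_intCast (H29W.pr (EB B) i) (e y).re
  · exact map_intCast (H29W.pr (EB B) i) (e y).im

end bridge

section TV

open TC (Pr)

variable {N f D' : ℕ} [NeZero N] [NeZero f] {W : Type*} [AddCommGroup W] [Module ℂ W]
  [FiniteDimensional ℂ W]

theorem TV_comm (r : GL (Fin 2) (ZMod f) →* Module.End ℂ W) (hr : r (-1) = 1) (hND : N ∣ D')
    (ℓ ℓ' : Pr D') : Commute (TV (ofGL f r) 2 hND ℓ) (TV (ofGL f r) 2 hND ℓ') := by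
  obtain ⟨hinj, -, hT⟩ := ES_final (N := N) (r := r) hr
  have key : ∀ (l : Pr D') (F : vForms N (ofGL f r) 2),
      ESmap N (ofGL f r) (ofGL_neg_one r hr) (TV (ofGL f r) 2 hND l F, 0) =
        TH (ofGL f r) hND l (ESmap N (ofGL f r) (ofGL_neg_one r hr) (F, 0)) := by
    intro l F
    have h1 := hT l.1 l.2.1 (fun h => l.2.2 (h.trans hND)) (F, 0)
    rw [map_zero] at h1
    exact h1
  refine LinearMap.ext fun F => ?_
  have h2 : ESmap N (ofGL f r) (ofGL_neg_one r hr)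
      (TV (ofGL f r) 2 hND ℓ (TV (ofGL f r) 2 hND ℓ' F), 0) =
      ESmap N (ofGL f r) (ofGL_neg_one r hr)
      (TV (ofGL f r) 2 hND ℓ' (TV (ofGL f r) 2 hND ℓ F), 0) := by
    rw [key, key, key, key]
    have h5 := congrArg (fun T : Module.End ℂ (H1 N (ofGL f r)) =>
      T (ESmap N (ofGL f r) (ofGL_neg_one r hr) (F, 0))) (TH_comm (ofGL f r) hND ℓ ℓ').eq
    exact h5
  exact congrArg Prod.fst (hinj h2)

end TV

section main

open TC (Pr)

variable {K : Type} [Field K] [NumberField K] {M : ℕ} [NeZero M] {B : Finset ℕ} [PB B]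
  [IB (-2 * M) B] {e : 𝓞 K ≃+* QI ℤ (-2 * M)}
  {ξ : (i : B) → MulChar (QI (ZMod (i : ℕ)) (-2 * M)) ℂ} {ψ : ClassGroup (𝓞 K) →* ℂˣ}

theorem nS_eq (n : ℕ) : nS (𝓞 K) n = ZC.idn K n := by
  ext b
  rw [mem_nS, ZC.mem_idn]

/-- the character `X θ(cls)` -/
def Xθ (C : ZC.RC e B ξ ψ) (θ : C.G →* ℂˣ) (b : Ideal (𝓞 K)) : ℂ := C.X b * (θ (C.cls b) : ℂ)

theorem Xθ_mul (C : ZC.RC e B ξ ψ) (θ : C.G →* ℂˣ) (a b : Ideal (𝓞 K)) :
    Xθ C θ (a * b) = Xθ C θ a * Xθ C θ b := by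
  rw [Xθ, Xθ, Xθ, C.X_mul]
  by_cases ha : C.X a = 0
  · rw [ha]; ring
  · by_cases hb : C.X b = 0
    · rw [hb]; ring
    · rw [C.cls_mul a b ha hb, map_mul, Units.val_mul]; ring

theorem exists_UX (C : ZC.RC e B ξ ψ) (hB : B.Nonempty) (hf1 : 1 < fB B)
    (hcop : (fB B).Coprime (8 * M)) (hf2 : Nat.Coprime 2 (fB B)) (D : BData (-2 * M) B ℂ)
    (hDξ : ∀ i, (D i).ξ = ξ i) (hΨ : ∀ x, bigΨ (EB B) D x = ZMod.stdAddChar x)
    (θ : C.G →* ℂˣ) :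
    ∃ F : vForms (2 * M) (ofGL (fB B) (kirB D)) 2, ∀ n : ℕ, n.Coprime (fB B) →
      H18T.coefV (upT_kirB D hΨ) F n = cX (fB B) (H18T.rep M) (Xθ C θ) n := by
  obtain ⟨ξ', h1, h2⟩ := C.char_eq hB θ
  obtain ⟨D1, hD1, hD2, hD3⟩ := exists_data_inv D ξ' (fun i => by rw [hDξ i]; exact h1 i)
  have hΨ1 : ∀ x, bigΨ (EB B) D1 x = ZMod.stdAddChar x := by
    intro x
    rw [← hΨ x, bigΨ_apply, bigΨ_apply]
    exact Finset.prod_congr rfl fun i _ => by rw [hD1]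
  let e' : 𝓞 K ≃+* QuadraticAlgebra ℤ (-2 * M : ℤ) 0 := e
  have hX : ∀ y : 𝓞 K, Xθ C θ (Ideal.span {y}) =
      H18T.xi' (toW (EB B) D1) (H18T.rdS (M := M) (f := fB B) e' rfl y) := by
    intro y
    rw [xi'_toW, Xθ, h2 y]
    refine Finset.prod_congr rfl fun i _ => ?_
    rw [hD2]
    rfl
  have hmem := H18T.UX_mem (toW (EB B) D1) e' rfl (Xθ_mul C θ) hX hΨ1 hf1 hcop hf2
  have hseq := H18T.UX_seq (toW (EB B) D1) e' rfl (Xθ_mul C θ) hX hΨ1 hf1 hf2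
  rw [kirE_toW, hD3] at hmem
  refine ⟨⟨_, hmem⟩, fun n hn => ?_⟩
  rw [H18T.coefV_eq (upT_kirB D hΨ) ⟨_, hmem⟩ hseq ((ZMod.isUnit_iff_coprime n (fB B)).mpr hn)]
  rw [H18T.conv, cX]
  refine Finset.sum_congr rfl fun j _ => ?_
  rw [H18T.cX_eq_sum (Xθ C θ) _ (nS (𝓞 K) _) (fun b => mem_nS)]
  rfl

/-- **the lower bound of package U** -/
theorem card_le_finrank (C : ZC.RC e B ξ ψ) (hψ : ψ ≠ 1) (hB : B.Nonempty)
    (hcop : (fB B).Coprime (8 * M)) (D : BData (-2 * M) B ℂ)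
    (hDξ : ∀ i, (D i).ξ = ξ i) (hΨ : ∀ x, bigΨ (EB B) D x = ZMod.stdAddChar x)
    (A : ValuationSubring ℂ) (h2 : (2 : ℂ) ∈ A.nonunits) {D' : ℕ} (hND : 2 * M ∣ D')
    (hfD : fB B ∣ D') (a : Pr D' → IsLocalRing.ResidueField A)
    (ha : ∀ ℓ : Pr D', a ℓ = ZC.aL A C.X ℓ) :
    2 ^ B.card * 2 ^ padicValNat 2 (Nat.card (ClassGroup (𝓞 K))) ≤
      finrank ℂ (gpart (TV (ofGL (fB B) (kirB D)) 2 hND) (LamA A a)) := by
  classical
  have hf0 : fB B ≠ 0 := NeZero.ne _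
  have hf1 : 1 < fB B := by
    obtain ⟨q, hq⟩ := hB
    have h3 : q ∣ fB B := by rw [fB_eq]; exact Finset.dvd_prod_of_mem _ hq
    exact (PB.prime q hq).one_lt.trans_le (Nat.le_of_dvd (Nat.pos_of_ne_zero hf0) h3)
  have hf2 : Nat.Coprime 2 (fB B) :=
    (Nat.Coprime.coprime_dvd_right (Dvd.intro (4 * M) (by ring)) hcop).symm
  have h2k : (2 : IsLocalRing.ResidueField A) = 0 := two_eq_zero_residue A h2
  obtain ⟨-, hfin, -⟩ := ES_final (N := 2 * M) (r := kirB D) (kirB_neg_one D)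
  have hXA : ∀ b, C.X b ∈ A := by
    intro b
    by_cases hb : C.X b = 0
    · rw [hb]; exact A.zero_mem
    · exact root_of_unity_mem A (n := 3 * 2 ^ C.r) (by positivity) (C.X_pow b hb)
  let XA : Ideal (𝓞 K) → A := fun b => ⟨C.X b, hXA b⟩
  have hthS : ∀ n, thS XA C.cls n = ZC.thG A C.cls C.X n := by
    intro n
    rw [thS, ZC.thG, nS_eq]
    refine Finset.sum_congr rfl fun b _ => ?_
    rw [ZC.resA_of_mem (hXA b)]
  have hdvd : ∀ ℓ : Pr D', ¬ ((ℓ : ℕ) : ℤ) ∣ 2 * (-2 * M) * (fB B : ℕ) := by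
    intro ℓ h
    have h3 : (ℓ : ℕ) ∣ 2 * (2 * M) * fB B := by
      have h4 : ((ℓ : ℕ) : ℤ) ∣ ((2 * (2 * M) * fB B : ℕ) : ℤ) := by
        have h5 := dvd_neg.mpr h
        have h6 : -(2 * (-2 * (M : ℤ)) * ((fB B : ℕ) : ℤ)) = ((2 * (2 * M) * fB B : ℕ) : ℤ) := by
          push_cast; ring
        rwa [h6] at h5
      exact Int.natCast_dvd_natCast.mp h4
    rcases (Nat.Prime.dvd_mul ℓ.2.1).mp h3 with h4 | h4
    · rcases (Nat.Prime.dvd_mul ℓ.2.1).mp h4 with h5 | h5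
      · exact ℓ.2.2 (h5.trans ((dvd_mul_right 2 M).trans hND))
      · exact ℓ.2.2 (h5.trans hND)
    · exact ℓ.2.2 (h4.trans hfD)
  have hne2 : ∀ ℓ : Pr D', Odd (ℓ : ℕ) := by
    intro ℓ
    refine ℓ.2.1.odd_of_ne_two fun h => ?_
    exact ℓ.2.2 (by rw [h]; exact (dvd_mul_right 2 M).trans hND)
  have hcopℓ : ∀ ℓ : Pr D', (ℓ : ℕ).Coprime (fB B) := by
    intro ℓ
    exact (Nat.Prime.coprime_iff_not_dvd ℓ.2.1).mpr fun h => ℓ.2.2 (h.trans hfD)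
  let cf : ℕ → vForms (2 * M) (ofGL (fB B) (kirB D)) 2 →ₗ[ℂ] ℂ := fun n =>
    (LinearMap.proj n).comp (H18T.coefV (upT_kirB D hΨ))
  have hcf : CfHyp (fB B) (fun ℓ : Pr D' => (ℓ : ℕ)) (TV (ofGL (fB B) (kirB D)) 2 hND) cf := by
    refine ⟨hcopℓ, fun ℓ n hn F => ?_⟩
    have h3 := H18T.coefV_TF (upT_kirB D hΨ) ℓ.2.1 (fun h => ℓ.2.2 (h.trans hND)) (hcopℓ ℓ) F
      ((ZMod.isUnit_iff_coprime n (fB B)).mpr hn)
    refine h3.trans ?_
    congr 1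
    rw [mul_ite, mul_zero]
    norm_num
    rfl
  choose U hU using fun χ : AddChar (Additive C.G) ℂ =>
    exists_UX C hB hf1 hcop hf2 D hDξ hΨ (thetaOf χ)
  rw [← C.card]
  refine card_le_of_family (A := A) hcf (fun i j => TV_comm (kirB D) (kirB_neg_one D) hND i j) h2k
    hne2 (Nat.pos_of_ne_zero hf0) (H18T.rep_zero M) (fun m hm => H18T.even_rep M hm) XA C.cls U
    (fun χ n hn => hU χ n hn) ?_ ?_ ?_
  · intro n _
    rw [hthS, hthS]
    exact C.th_four A h2 n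
  · refine ⟨fun ℓ n _ => ?_, fun ℓ => ?_⟩
    · have := C.th_hecke A h2 ℓ ℓ.2.1 (hdvd ℓ) n
      rw [hthS, hthS, hthS, hthS]
      exact this
    · rw [ha ℓ, hthS]
      exact C.th_nil A h2 ℓ ℓ.2.1 (hdvd ℓ)
  · intro c hc
    refine C.th_span hψ A h2 c fun n _ hn => ?_
    have := hc n hn
    simp only [hthS] at this
    exact this

end main

end

end Fermat.Agent.H29U
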