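import Mathlib
import Fermat.Agent.H29W.BFinal

set_option autoImplicit false
set_option linter.all false
set_option maxHeartbeats 400000

/-! Existence of characters of order four. -/

namespace Fermat.Agent.H29U

open Fermat.Agent.H29Z

noncomputable section

theorem exists_xi {d : ℤ} (q : ℕ) [Fact q.Prime] [Inert (ZMod q) d] (h4 : 4 ∣ q + 1) :
    ∃ ξ : MulChar (QI (ZMod q) d) ℂ, (∀ a : ZMod q, a ≠ 0 → ξ (algebraMap (ZMod q) _ a) = 1) ∧
      (∀ x ≠ 0, ξ x ^ 4 = 1) ∧ ∃ x ≠ 0, ξ x ^ 2 ≠ 1 := by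
  have hcard : Fintype.card (QI (ZMod q) d) = q ^ 2 := by
    rw [Fintype.card_congr (QuadraticAlgebra.equivProd (R := ZMod q) _ _), Fintype.card_prod, ZMod.card, sq]
  have hq1 : 1 ≤ q := (Fact.out : q.Prime).one_le
  have hq2 : q ^ 2 - 1 = (q + 1) * (q - 1) := by
    have := Nat.sq_sub_sq q 1
    simpa using this
  have h4' : 4 ∣ Fintype.card (QI (ZMod q) d) - 1 := by
    rw [hcard, hq2]
    exact h4.mul_right _
  obtain ⟨χ, hχ⟩ := MulChar.exists_mulChar_orderOf (R := ℂ) (QI (ZMod q) d) h4'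
    (Complex.isPrimitiveRoot_exp 4 (by norm_num))
  have hχ4 : ∀ x ≠ 0, χ x ^ 4 = 1 := by
    intro x hx
    have h1 : χ ^ 4 = 1 := by rw [← hχ]; exact pow_orderOf_eq_one χ
    rw [← MulChar.pow_apply' χ (by norm_num), h1, MulChar.one_apply hx.isUnit]
  refine ⟨χ, ?_, hχ4, ?_⟩
  · intro a ha
    obtain ⟨g, hg⟩ := IsCyclic.exists_generator (α := (QI (ZMod q) d)ˣ)
    have hinj : Function.Injective (algebraMap (ZMod q) (QI (ZMod q) d)) :=
      (algebraMap (ZMod q) (QI (ZMod q) d)).injective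
    have hne : algebraMap (ZMod q) (QI (ZMod q) d) a ≠ 0 := by
      rw [Ne, map_eq_zero_iff _ hinj]; exact ha
    obtain ⟨j, hj⟩ := (mem_powers_iff_mem_zpowers (x := g)
      (y := Units.mk0 (algebraMap (ZMod q) (QI (ZMod q) d) a) hne)).mpr (hg _)
    have hord : orderOf g = (q + 1) * (q - 1) := by
      rw [orderOf_eq_card_of_forall_mem_zpowers hg, Nat.card_eq_fintype_card, Fintype.card_units,
        hcard, hq2]
    have h1 : g ^ (j * (q - 1)) = 1 := by
      rw [pow_mul]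
      have h2 : g ^ j = _ := hj
      rw [h2]
      apply Units.ext
      rw [Units.val_pow_eq_pow_val, Units.val_mk0, ← map_pow, ZMod.pow_card_sub_one_eq_one ha,
        map_one, Units.val_one]
    have h2 : (q + 1) ∣ j := by
      have h3 := orderOf_dvd_of_pow_eq_one h1
      rw [hord] at h3
      have h5 : 0 < q - 1 := by
        have := (Fact.out : q.Prime).two_le
        omega
      exact Nat.dvd_of_mul_dvd_mul_right h5 h3
    obtain ⟨m, hm⟩ := h4.trans h2
    have h3 : algebraMap (ZMod q) (QI (ZMod q) d) a = ((g ^ j : (QI (ZMod q) d)ˣ) : QI (ZMod q) d) := by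
      have h2 : g ^ j = _ := hj
      rw [h2, Units.val_mk0]
    rw [h3, hm, pow_mul, Units.val_pow_eq_pow_val, Units.val_pow_eq_pow_val, map_pow, map_pow,
      hχ4 _ g.ne_zero, one_pow]
  · by_contra hcon
    push Not at hcon
    have h1 : χ ^ 2 = 1 := by
      ext x
      rw [MulChar.pow_apply' χ (by norm_num), hcon _ x.ne_zero, MulChar.one_apply x.isUnit]
    have h2 := orderOf_dvd_of_pow_eq_one h1
    rw [hχ] at h2
    exact absurd h2 (by norm_num)

/-- families of characters of order four -/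
theorem exists_xiB {d : ℤ} (B : Finset ℕ) [PB B] [IB d B] (h4 : ∀ q ∈ B, 4 ∣ q + 1) :
    ∃ ξ : (i : B) → MulChar (QI (ZMod (i : ℕ)) d) ℂ,
      (∀ (i : B) (a : ZMod (i : ℕ)), a ≠ 0 → ξ i (algebraMap (ZMod (i : ℕ)) _ a) = 1) ∧
      (∀ (i : B), ∀ x ≠ 0, ξ i x ^ 4 = 1) ∧ ∀ i : B, ∃ x ≠ 0, ξ i x ^ 2 ≠ 1 := by
  choose ξ h1 h2 h3 using fun i : B => exists_xi (d := d) (i : ℕ) (h4 i i.2)
  exact ⟨ξ, h1, h2, h3⟩

end

end Fermat.Agent.H29U
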