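import Mathlib
import Fermat.Agent.H29U.Final
import Fermat.Agent.H29U.Xi
import Fermat.Agent.ZC.RCExists
import Fermat.Agent.H28S.HFinal

set_option autoImplicit false
set_option linter.all false
set_option maxHeartbeats 400000

/-! The number of newforms. -/

namespace Fermat.Agent.H29U

open Module NumberField Fermat.Agent.H29Z Fermat.Agent.H24ES Fermat.Agent.H24H Fermat.Agent.H28S
open Fermat.Agent.AL (NF)
open TC (Pr)

noncomputable section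

/-- **lower bound for the number of newforms** of level `2M ∏ B` with residual system given by
the dihedral system of the ring class characters. -/
theorem count {K : Type} [Field K] [NumberField K] {M : ℕ} [NeZero M] {B : Finset ℕ} [PB B]
    [IB (-2 * M) B] (e : 𝓞 K ≃+* QI ℤ (-2 * M)) (hB : B.Nonempty) (h4 : ∀ q ∈ B, 4 ∣ q + 1)
    (hcop : (fB B).Coprime (8 * M)) (hS : NoS (2 * M)) (ψ : ClassGroup (𝓞 K) →* ℂˣ)
    (hψ3 : ∀ c, ψ c ^ 3 = 1) (hψ : ψ ≠ 1) :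
    ∃ (ξ : (i : B) → MulChar (QI (ZMod (i : ℕ)) (-2 * M)) ℂ) (C : ZC.RC e B ξ ψ),
      ∀ (A : ValuationSubring ℂ), (2 : ℂ) ∈ A.nonunits → ∀ {D' : ℕ}, D' ≠ 0 →
        lev (2 * M) B ∣ D' → ∀ ℓ₁ : Pr D', ((ℓ₁ : ℕ) : ZMod D') = 1 → ZC.aL A C.X ℓ₁ ≠ 0 →
        (∀ L, L ∣ lev (2 * M) B → ¬ 2 * M ∣ L →
          Nat.card (NF D' L (LamA A (fun ℓ : Pr D' => ZC.aL A C.X ℓ))) = 0) →
        2 ^ B.card * 2 ^ padicValNat 2 (Nat.card (ClassGroup (𝓞 K))) ≤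
          Nat.card (NF D' (lev (2 * M) B) (LamA A (fun ℓ : Pr D' => ZC.aL A C.X ℓ))) := by
  obtain ⟨ξ, hξ1, hξ4, hξ2⟩ := exists_xiB (d := -2 * M) B h4
  have hM : (0 : ℤ) < M := by exact_mod_cast NeZero.pos M
  obtain ⟨C⟩ := ZC.exists_RC e (by linarith) ⟨-M, by ring⟩ B ξ hξ1 hξ4 hξ2 ψ hψ3
  refine ⟨ξ, C, ?_⟩
  intro A h2 D' hD hlev ℓ₁ hℓ₁ ha hnew
  have hND : 2 * M ∣ D' := (Dvd.intro _ rfl).trans hlev
  have hfD : fB B ∣ D' := by
    rw [fB_eq]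
    exact (Dvd.intro_left (2 * M) rfl).trans hlev
  have h1 := card_le_finrank C hψ hB hcop (stdB ξ hξ1 hξ2) (fun i => rfl)
    (bigΨ_stdB ξ hξ1 hξ2) A h2 hND hfD (fun ℓ => ZC.aL A C.X ℓ) (fun ℓ => rfl)
  refine h1.trans ?_
  have hqM : ∀ q ∈ B, Nat.Coprime q (8 * M) := by
    intro q hq
    refine Nat.Coprime.coprime_dvd_left ?_ hcop
    rw [fB_eq]
    exact Finset.dvd_prod_of_mem _ hq
  refine finrank_le_card_NF (N' := 2 * M) (stdB ξ hξ1 hξ2) (fun i x hx => hξ4 i x hx) h2 ?_ ?_ hS hD hlev hND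
    _ ℓ₁ hℓ₁ ?_ ha hnew
  · intro q hq
    rw [← Nat.coprime_two_right]
    exact Nat.Coprime.coprime_dvd_right (Dvd.intro (4 * M) (by ring)) (hqM q hq)
  · intro q hq hdvd
    have h5 : q ∣ 8 * M := hdvd.trans (Dvd.intro_left 4 (by ring))
    have h6 := Nat.Coprime.eq_one_of_dvd (hqM q hq) h5
    exact (PB.prime q hq).one_lt.ne' h6
  · intro h
    exact ℓ₁.2.2 (by rw [h]; exact (dvd_mul_right 2 M).trans hND)

end

end Fermat.Agent.H29U
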